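/-
GATE-Z (S15) / [MOD-beta] leaf (T6), part A (helper91): SPECIALISING THE MODULAR EQUATION.

The frozen modular equation `Φ(j(q), j(q^N)) = 0` (`ModularPolynomialData.eval_eq_zero`, an identity
in `ℚ((X))`) has integral coefficients, hence

* `eval₂_int`   : it already holds in `ℤ((X))`  (`Φ.eval₂ evalAtJZ (jqNModC ℤ N) = 0`);
* `liftL φ hφ`  : every ring hom `φ : ℤ⟦X⟧ →+* K` into a field with `φ X ≠ 0` extends (uniquely) to
  `ℤ((X)) →+* K` (Laurent series are the localisation of power series at `X`);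
* `liftL_jqModC`  : `liftL φ (j) = (φ X)⁻¹ * φ jNum`;
* `liftL_qExpand` : `liftL φ ∘ (q ↦ q^N) = liftL (φ ∘ expand N)`;
* **`modular_eq`** : `Φ((φ X)⁻¹ φ(jNum), ((φ X)^N)⁻¹ φ(jNum(X^N))) = 0` in `K`;
* `modular_eq'`   : the same with a second hom `ψ = φ ∘ expand N` (in the gate: `φ = evalInt q₀`,
  `ψ = evalInt (q₀^N)`), i.e. `Φ(j(q₀), j(q₀^N)) = 0`;
* `modular_eq_symm`, `modular_eq_symm'` : the swapped statement `Φ(j(q₀^N), j(q₀)) = 0` from the
  swapped formal identity (binder `SymmEq data`; discharged in `T6/Symm.lean` by Atkin–Lehner).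

No topology here: the analytic input is only the existence of the evaluation homs.
-/
import Mathlib
import Fermat.Prelude.Def_ModularCurve_X0ModL

set_option autoImplicit false

noncomputable section

namespace Fermat.Agent.GZ.Tate.T6

open ModularCurve PowerSeries

/-! ### the modular equation over `ℤ((X))` -/

/-- evaluation of an integral polynomial at the integral `j`-expansion. -/
def evalAtJZ : Polynomial ℤ →+* LaurentSeries ℤ :=
  (Polynomial.aeval (R := ℤ) (jqModC ℤ)).toRingHom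

@[simp]
theorem evalAtJZ_X : evalAtJZ Polynomial.X = jqModC ℤ := by
  simp [evalAtJZ]

theorem coeffMap_comp_evalAtJZ :
    (coeffMap (Int.castRingHom ℚ)).comp evalAtJZ = evalAtJ := by
  refine Polynomial.ringHom_ext' (Subsingleton.elim _ _) ?_
  show coeffMap (Int.castRingHom ℚ) (evalAtJZ Polynomial.X) = evalAtJ Polynomial.X
  rw [evalAtJZ_X, evalAtJ_X, coeffMap_jqModC, jqModC_rat]

theorem coeffMap_injective {R S : Type*} [CommRing R] [CommRing S] (f : R →+* S)
    (hf : Function.Injective f) : Function.Injective (coeffMap f) := by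
  intro x y hxy
  ext k
  apply hf
  have := congrArg (fun z : LaurentSeries S => z.coeff k) hxy
  simpa using this

variable {N : ℕ} [NeZero N]

/-- **the modular equation holds over `ℤ((X))`**. -/
theorem eval₂_int (data : ModularPolynomialData N) :
    data.Φ.eval₂ evalAtJZ (jqNModC ℤ N) = 0 := by
  apply coeffMap_injective (Int.castRingHom ℚ) Int.cast_injective
  rw [map_zero, Polynomial.hom_eval₂, coeffMap_comp_evalAtJZ, coeffMap_jqNModC, jqNModC_rat]
  exact data.eval_eq_zero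

/-- the swapped modular equation `Φ(j(q^N), j(q)) = 0` as a formal identity over `ℚ((X))`
(true for `N` prime by the Atkin–Lehner involution: `T6/Symm.lean`). -/
def SymmEq (data : ModularPolynomialData N) : Prop :=
  data.Φ.eval₂ (Polynomial.aeval (R := ℤ) (jqN N)).toRingHom jq = 0

/-- evaluation of an integral polynomial at the integral `j(q^N)`. -/
def evalAtJNZ (N : ℕ) [NeZero N] : Polynomial ℤ →+* LaurentSeries ℤ :=
  (Polynomial.aeval (R := ℤ) (jqNModC ℤ N)).toRingHom

@[simp]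
theorem evalAtJNZ_X : evalAtJNZ N Polynomial.X = jqNModC ℤ N := by
  simp [evalAtJNZ]

theorem coeffMap_comp_evalAtJNZ :
    (coeffMap (Int.castRingHom ℚ)).comp (evalAtJNZ N) =
      (Polynomial.aeval (R := ℤ) (jqN N)).toRingHom := by
  refine Polynomial.ringHom_ext' (Subsingleton.elim _ _) ?_
  show coeffMap (Int.castRingHom ℚ) (evalAtJNZ N Polynomial.X) =
    (Polynomial.aeval (R := ℤ) (jqN N)).toRingHom Polynomial.X
  rw [evalAtJNZ_X, coeffMap_jqNModC, jqNModC_rat]
  simp

theorem eval₂_int_symm {data : ModularPolynomialData N} (h : SymmEq data) :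
    data.Φ.eval₂ (evalAtJNZ N) (jqModC ℤ) = 0 := by
  apply coeffMap_injective (Int.castRingHom ℚ) Int.cast_injective
  rw [map_zero, Polynomial.hom_eval₂, coeffMap_comp_evalAtJNZ, coeffMap_jqModC, jqModC_rat]
  exact h

/-! ### extending a ring hom from power series to Laurent series -/

section Lift

variable {K : Type*} [Field K] (φ : PowerSeries ℤ →+* K) (hφ : φ X ≠ 0)

/-- the extension of `φ : ℤ⟦X⟧ →+* K`, `φ X ≠ 0`, to Laurent series. -/
def liftL : LaurentSeries ℤ →+* K :=
  IsLocalization.lift (M := Submonoid.powers (PowerSeries.X : PowerSeries ℤ))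
    (S := LaurentSeries ℤ) (g := φ) (by
      rintro ⟨_, n, rfl⟩
      rw [map_pow]
      exact (isUnit_iff_ne_zero.mpr hφ).pow n)

@[simp]
theorem liftL_ofPowerSeries (f : PowerSeries ℤ) :
    liftL φ hφ (HahnSeries.ofPowerSeries ℤ ℤ f) = φ f := by
  have := IsLocalization.lift_eq (M := Submonoid.powers (PowerSeries.X : PowerSeries ℤ))
    (S := LaurentSeries ℤ) (g := φ) (by
      rintro ⟨_, n, rfl⟩
      rw [map_pow]
      exact (isUnit_iff_ne_zero.mpr hφ).pow n) f
  rwa [LaurentSeries.coe_algebraMap] at this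

theorem liftL_single_one : liftL φ hφ (HahnSeries.single (1 : ℤ) (1 : ℤ)) = φ X := by
  rw [← HahnSeries.ofPowerSeries_X, liftL_ofPowerSeries]

theorem liftL_single_neg (n : ℕ) :
    liftL φ hφ (HahnSeries.single (-(n : ℤ)) (1 : ℤ)) = (φ X ^ n)⁻¹ := by
  have h1 : HahnSeries.single (-(n : ℤ)) (1 : ℤ) * HahnSeries.ofPowerSeries ℤ ℤ (X ^ n) = 1 := by
    rw [HahnSeries.ofPowerSeries_X_pow, HahnSeries.single_mul_single]
    simp
  have h2 := congrArg (liftL φ hφ) h1
  rw [map_mul, liftL_ofPowerSeries, map_pow, RingHom.map_one] at h2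
  exact eq_inv_of_mul_eq_one_left h2

theorem liftL_single_neg_one :
    liftL φ hφ (HahnSeries.single (-1 : ℤ) (1 : ℤ)) = (φ X)⁻¹ := by
  have := liftL_single_neg φ hφ 1
  simpa using this

/-- two ring homs out of `ℤ((X))` that agree on power series are equal. -/
theorem ringHom_ext_laurent {θ₁ θ₂ : LaurentSeries ℤ →+* K}
    (h : ∀ f : PowerSeries ℤ, θ₁ (HahnSeries.ofPowerSeries ℤ ℤ f) =
      θ₂ (HahnSeries.ofPowerSeries ℤ ℤ f)) : θ₁ = θ₂ :=
  IsLocalization.ringHom_ext (Submonoid.powers (PowerSeries.X : PowerSeries ℤ))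
    (RingHom.ext fun f => by
      show θ₁ (algebraMap _ _ f) = θ₂ (algebraMap _ _ f)
      rw [LaurentSeries.coe_algebraMap]
      exact h f)

theorem map_intCast_id (f : PowerSeries ℤ) : f.map (Int.castRingHom ℤ) = f := by
  ext n
  simp

/-- `liftL φ (j) = (φ X)⁻¹ · φ(jNum)`. -/
theorem liftL_jqModC : liftL φ hφ (jqModC ℤ) = (φ X)⁻¹ * φ jNum := by
  rw [jqModC, map_mul, liftL_single_neg_one, liftL_ofPowerSeries, map_intCast_id]

/-- `q ↦ q^N` on power series inside Laurent series is `PowerSeries.expand`. -/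
theorem qExpand_ofPowerSeries (f : PowerSeries ℤ) :
    qExpand ℤ N (HahnSeries.ofPowerSeries ℤ ℤ f) =
      HahnSeries.ofPowerSeries ℤ ℤ (expand N (NeZero.ne N) f) := by
  ext k
  by_cases hk : (N : ℤ) ∣ k
  · obtain ⟨m, rfl⟩ := hk
    rw [qExpand_coeff_mul]
    rcases le_or_gt 0 m with hm | hm
    · lift m to ℕ using hm
      rw [HahnSeries.ofPowerSeries_apply_coeff,
        show (N : ℤ) * (m : ℤ) = ((N * m : ℕ) : ℤ) by push_cast; ring,
        HahnSeries.ofPowerSeries_apply_coeff, coeff_expand_mul]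
    · rw [ofPowerSeries_coeff_of_neg _ hm, ofPowerSeries_coeff_of_neg _]
      have hN : (0 : ℤ) < N := by exact_mod_cast Nat.pos_of_ne_zero (NeZero.ne N)
      exact mul_neg_of_pos_of_neg hN hm
  · rw [qExpand_coeff_of_not_dvd N _ hk]
    rcases le_or_gt 0 k with hk0 | hk0
    · lift k to ℕ using hk0
      rw [HahnSeries.ofPowerSeries_apply_coeff, coeff_expand_of_not_dvd]
      intro hd
      exact hk (by exact_mod_cast hd)
    · rw [ofPowerSeries_coeff_of_neg _ hk0]

include hφ in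
theorem expand_X_ne_zero : (φ.comp (expand N (NeZero.ne N)).toRingHom) X ≠ 0 := by
  show φ (expand N (NeZero.ne N) X) ≠ 0
  rw [expand_X, map_pow]
  exact pow_ne_zero _ hφ

/-- `liftL φ ∘ (q ↦ q^N) = liftL (φ ∘ expand N)`. -/
theorem liftL_qExpand (F : LaurentSeries ℤ) :
    liftL φ hφ (qExpand ℤ N F) =
      liftL (φ.comp (expand N (NeZero.ne N)).toRingHom) (expand_X_ne_zero φ hφ) F := by
  have : (liftL φ hφ).comp (qExpand ℤ N) =
      liftL (φ.comp (expand N (NeZero.ne N)).toRingHom) (expand_X_ne_zero φ hφ) := by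
    apply ringHom_ext_laurent
    intro f
    show liftL φ hφ (qExpand ℤ N (HahnSeries.ofPowerSeries ℤ ℤ f)) = _
    rw [qExpand_ofPowerSeries, liftL_ofPowerSeries, liftL_ofPowerSeries]
    rfl
  exact DFunLike.congr_fun this F

/-- `liftL φ (j(q^N)) = ((φ X)^N)⁻¹ · φ(jNum(X^N))`. -/
theorem liftL_jqNModC :
    liftL φ hφ (jqNModC ℤ N) = (φ X ^ N)⁻¹ * φ (expand N (NeZero.ne N) jNum) := by
  rw [jqNModC, liftL_qExpand, liftL_jqModC]
  show (φ (expand N (NeZero.ne N) X))⁻¹ * φ (expand N (NeZero.ne N) jNum) = _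
  rw [expand_X, map_pow]

theorem liftL_comp_evalAtJZ :
    (liftL φ hφ).comp evalAtJZ =
      Polynomial.eval₂RingHom (Int.castRingHom K) ((φ X)⁻¹ * φ jNum) := by
  refine Polynomial.ringHom_ext' (Subsingleton.elim _ _) ?_
  show liftL φ hφ (evalAtJZ Polynomial.X) = Polynomial.eval₂RingHom (Int.castRingHom K) _ Polynomial.X
  rw [evalAtJZ_X, liftL_jqModC]
  simp

theorem liftL_comp_evalAtJNZ :
    (liftL φ hφ).comp (evalAtJNZ N) =
      Polynomial.eval₂RingHom (Int.castRingHom K)
        ((φ X ^ N)⁻¹ * φ (expand N (NeZero.ne N) jNum)) := by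
  refine Polynomial.ringHom_ext' (Subsingleton.elim _ _) ?_
  show liftL φ hφ (evalAtJNZ N Polynomial.X) =
    Polynomial.eval₂RingHom (Int.castRingHom K) _ Polynomial.X
  rw [evalAtJNZ_X, liftL_jqNModC]
  simp

include hφ in
/-- **the modular equation specialises along any ring hom `φ : ℤ⟦X⟧ →+* K` with `φ X ≠ 0`**:
`Φ(j(φ), j_N(φ)) = 0` with `j(φ) = (φ X)⁻¹ φ(jNum)`, `j_N(φ) = (φ X)^{-N} φ(jNum(X^N))`. -/
theorem modular_eq (data : ModularPolynomialData N) :
    data.Φ.eval₂ (Polynomial.eval₂RingHom (Int.castRingHom K) ((φ X)⁻¹ * φ jNum))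
      ((φ X ^ N)⁻¹ * φ (expand N (NeZero.ne N) jNum)) = 0 := by
  have h := congrArg (liftL φ hφ) (eval₂_int data)
  rwa [map_zero, Polynomial.hom_eval₂, liftL_comp_evalAtJZ, liftL_jqNModC] at h

include hφ in
/-- the swapped modular equation specialises as well. -/
theorem modular_eq_symm {data : ModularPolynomialData N} (hs : SymmEq data) :
    data.Φ.eval₂ (Polynomial.eval₂RingHom (Int.castRingHom K)
        ((φ X ^ N)⁻¹ * φ (expand N (NeZero.ne N) jNum)))
      ((φ X)⁻¹ * φ jNum) = 0 := by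
  have h := congrArg (liftL φ hφ) (eval₂_int_symm hs)
  rwa [map_zero, Polynomial.hom_eval₂, liftL_comp_evalAtJNZ, liftL_jqModC] at h

/-- the `j`-value attached to a ring hom `φ : ℤ⟦X⟧ →+* K` (in the gate `φ = evalInt q₀` and
`jVal φ = j(q₀) = q₀⁻¹ + 744 + 196884 q₀ + ⋯`). -/
def jVal : K := (φ X)⁻¹ * φ jNum

variable (ψ : PowerSeries ℤ →+* K)

include hφ in
/-- **two-hom form**: if `ψ = φ ∘ expand N` (in the gate: `φ = evalInt q₀`, `ψ = evalInt (q₀^N)`)
then `Φ(jVal φ, jVal ψ) = 0`. -/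
theorem modular_eq' (hψ : ∀ f, ψ f = φ (expand N (NeZero.ne N) f))
    (data : ModularPolynomialData N) :
    data.Φ.eval₂ (Polynomial.eval₂RingHom (Int.castRingHom K) (jVal φ)) (jVal ψ) = 0 := by
  have h := modular_eq φ hφ data
  rw [jVal, jVal, hψ, hψ, expand_X, map_pow]
  exact h

include hφ in
theorem modular_eq_symm' (hψ : ∀ f, ψ f = φ (expand N (NeZero.ne N) f))
    {data : ModularPolynomialData N} (hs : SymmEq data) :
    data.Φ.eval₂ (Polynomial.eval₂RingHom (Int.castRingHom K) (jVal ψ)) (jVal φ) = 0 := by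
  have h := modular_eq_symm φ hφ hs
  rw [jVal, jVal, hψ, hψ, expand_X, map_pow]
  exact h

end Lift

end Fermat.Agent.GZ.Tate.T6
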