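/-
GATE-Z (S15) / [MOD-beta] leaf (T6), part B (helper91): THE SWAPPED MODULAR EQUATION.

For a prime `p` and ANY `data : ModularPolynomialData p` the formal identity
`Φ(j(q^p), j(q)) = 0` holds in `ℚ((X))` (`symmEq_of_prime : SymmEq data`): transport the frozen
`Φ(j(q), j(q^p)) = 0` into the function field `F_p = ℚ̄(j, j_p)` of `X₀(p)`, apply the Atkin–Lehner
automorphism `wAut` (`GK/AL/WAut`: `j ↔ j_p`), and come back by injectivity of `coeffEmb`.
-/
import Mathlib
import Fermat.Agent.GK.AL.WAut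
import Fermat.Agent.GZ.Tate.T6.Formal

set_option autoImplicit false

noncomputable section

namespace Fermat.Agent.GZ.Tate.T6

open ModularCurve Fermat.Agent.S24 Fermat.Agent.S24_helper62 Fermat.Agent.GK.AL

variable {p : ℕ} [NeZero p]

omit [NeZero p] in
theorem exactDvd_self (hp : p.Prime) : ExactDvd p p :=
  ⟨hp, dvd_rfl, fun h => by
    have h1 : p ^ 2 ≤ p := Nat.le_of_dvd hp.pos h
    have h2 : 1 < p := hp.one_lt
    nlinarith⟩

/-- the index `1 ∣ p`. -/
def idxOne (p : ℕ) : DivIdx p := ⟨1, one_dvd p⟩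

/-- the index `p ∣ p`. -/
def idxSelf (p : ℕ) : DivIdx p := ⟨p, dvd_rfl⟩

omit [NeZero p] in
theorem swapIdx_idxOne (hp : p.Prime) :
    swapIdx (exactDvd_self hp) (idxOne p) = idxSelf p := by
  apply Subtype.ext
  rw [swapIdx_apply, swapFun_of_not_dvd _ (d := idxOne p) (by
    show ¬ p ∣ 1
    exact hp.one_lt.ne' ∘ Nat.dvd_one.mp)]
  show p * 1 = p
  rw [mul_one]

omit [NeZero p] in
theorem swapIdx_idxSelf (hp : p.Prime) :
    swapIdx (exactDvd_self hp) (idxSelf p) = idxOne p := by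
  apply Subtype.ext
  rw [swapIdx_apply, swapFun_of_dvd _ (d := idxSelf p) (by show p ∣ p; exact dvd_rfl)]
  show p / p = 1
  exact Nat.div_self hp.pos

theorem coe_gen_idxOne :
    ((gen p (idxOne p) : FN p) : LaurentSeries Kbar) = coeffEmb Kbar jq := by
  rw [gen_eq_jdF]
  exact coe_jF p

theorem coe_gen_idxSelf :
    ((gen p (idxSelf p) : FN p) : LaurentSeries Kbar) = coeffEmb Kbar (jqN p) := by
  rw [gen_eq_jdF]
  rfl

/-- integral polynomials evaluated at an element of `F_p`. -/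
def evalFN (x : FN p) : Polynomial ℤ →+* FN p :=
  Polynomial.eval₂RingHom (Int.castRingHom (FN p)) x

theorem val_comp_evalFN (x : FN p) (y : LaurentSeries ℚ)
    (hxy : ((x : FN p) : LaurentSeries Kbar) = coeffEmb Kbar y) :
    ((modularFunctionFieldBar p).val : FN p →+* LaurentSeries Kbar).comp (evalFN x) =
      (coeffEmb Kbar).comp (Polynomial.aeval (R := ℤ) y).toRingHom := by
  refine Polynomial.ringHom_ext' (Subsingleton.elim _ _) ?_
  show ((evalFN x Polynomial.X : FN p) : LaurentSeries Kbar) =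
    coeffEmb Kbar ((Polynomial.aeval (R := ℤ) y).toRingHom Polynomial.X)
  rw [evalFN, Polynomial.coe_eval₂RingHom, Polynomial.eval₂_X, hxy]
  simp

theorem coe_eval₂_evalFN (x z : FN p) (y w : LaurentSeries ℚ)
    (hxy : ((x : FN p) : LaurentSeries Kbar) = coeffEmb Kbar y)
    (hzw : ((z : FN p) : LaurentSeries Kbar) = coeffEmb Kbar w)
    (Φ : Polynomial (Polynomial ℤ)) :
    ((Φ.eval₂ (evalFN x) z : FN p) : LaurentSeries Kbar) =
      coeffEmb Kbar (Φ.eval₂ (Polynomial.aeval (R := ℤ) y).toRingHom w) := by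
  have h1 := Polynomial.hom_eval₂ Φ (evalFN x)
    ((modularFunctionFieldBar p).val : FN p →+* LaurentSeries Kbar) z
  have h2 := Polynomial.hom_eval₂ Φ (Polynomial.aeval (R := ℤ) y).toRingHom (coeffEmb Kbar) w
  rw [val_comp_evalFN x y hxy] at h1
  rw [h2]
  show ((modularFunctionFieldBar p).val : FN p →+* LaurentSeries Kbar) _ = _
  rw [h1]
  show Polynomial.eval₂ _ ((z : FN p) : LaurentSeries Kbar) Φ = _
  rw [hzw]

theorem coeffEmb_injective : Function.Injective (coeffEmb Kbar) :=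
  coeffMap_injective _ (algebraMap ℚ Kbar).injective

/-- **the swapped modular equation** `Φ(j(q^p), j(q)) = 0` for `p` prime. -/
theorem symmEq_of_prime (hp : p.Prime) (data : ModularPolynomialData p) : SymmEq data := by
  have h := exactDvd_self hp
  -- the equation in `F_p`
  have h1 : data.Φ.eval₂ (evalFN (gen p (idxOne p))) (gen p (idxSelf p)) = 0 := by
    apply Subtype.ext
    rw [coe_eval₂_evalFN _ _ jq (jqN p) coe_gen_idxOne coe_gen_idxSelf]
    show coeffEmb Kbar (data.Φ.eval₂ evalAtJ (jqN p)) = _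
    rw [data.eval_eq_zero, map_zero]
    rfl
  -- apply `wAut`
  have h2 := congrArg (wAut h) h1
  rw [map_zero] at h2
  have h3 := Polynomial.hom_eval₂ data.Φ (evalFN (gen p (idxOne p)))
    ((wAut h : FN p ≃ₐ[Kbar] FN p) : FN p →+* FN p) (gen p (idxSelf p))
  have h4 : ((wAut h : FN p ≃ₐ[Kbar] FN p) : FN p →+* FN p).comp (evalFN (gen p (idxOne p))) =
      evalFN (gen p (idxSelf p)) := by
    refine Polynomial.ringHom_ext' (Subsingleton.elim _ _) ?_
    show wAut h (evalFN (gen p (idxOne p)) Polynomial.X) = evalFN (gen p (idxSelf p)) Polynomial.X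
    rw [evalFN, evalFN, Polynomial.coe_eval₂RingHom, Polynomial.coe_eval₂RingHom,
      Polynomial.eval₂_X, Polynomial.eval₂_X, wAut_gen, swapIdx_idxOne hp]
  rw [h4] at h3
  have h5 : data.Φ.eval₂ (evalFN (gen p (idxSelf p))) (gen p (idxOne p)) = 0 := by
    have : ((wAut h : FN p ≃ₐ[Kbar] FN p) : FN p →+* FN p) (gen p (idxSelf p)) =
        gen p (idxOne p) := by
      show wAut h (gen p (idxSelf p)) = _
      rw [wAut_gen, swapIdx_idxSelf hp]
    rw [← this, ← h3]
    exact h2
  -- back to `ℚ((X))`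
  have h6 : ((data.Φ.eval₂ (evalFN (gen p (idxSelf p))) (gen p (idxOne p)) : FN p) :
      LaurentSeries Kbar) = 0 := by
    rw [h5]; rfl
  rw [coe_eval₂_evalFN _ _ (jqN p) jq coe_gen_idxSelf coe_gen_idxOne] at h6
  apply coeffEmb_injective
  rw [map_zero]
  exact h6

end Fermat.Agent.GZ.Tate.T6
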