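/-
GATE-Z (S15) / [MOD-beta] leaf (T6), part C (helper91): THE `j`-VALUE ATTACHED TO A RING HOM
`φ : ℤ⟦X⟧ →+* K` (`φ X ≠ 0`; in the gate `φ = evalInt q₀`), purely algebraic.

* `map_deltaZ_ne_zero`  : `φ(Δ) ≠ 0`   (`Δ = X · ∏(1 - Xⁿ)²⁴`, the product is a unit of `ℤ⟦X⟧`);
* `jVal_mul_deltaZ`     : `jVal φ · φ(Δ) = φ(E₄)³`,  `jVal_eq_div : jVal φ = φ(E₄)³ / φ(Δ)`;
* `c_relation_map`      : `φ(E₄)³ - φ(E₆)² = 1728 φ(Δ)`;
* **`jVal_of_c4_c6`**   : if `c₄' = λ⁴ φ(E₄)` and `c₆'² = λ¹² φ(E₆)²` with `λ ≠ 0`, `1728 ≠ 0` in `K`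
  (the output shape of the two Vélu sums (T5): `λ = p`, `φ = evalInt (q₀^p)` resp. `λ = 1`,
  `φ = evalInt t₀`), then `c₄'³ - c₆'² ≠ 0` and `1728 c₄'³ / (c₄'³ - c₆'²) = jVal φ`;
* `j_eq_jVal`           : the same for an elliptic `W' : WeierstrassCurve K` (`W'.j = jVal φ`);
* `j_map_tateCurve`     : `j(tateCurve.map φ) = jVal φ` for the formal Tate curve of (T0).
-/
import Mathlib
import Fermat.Agent.GZ.Tate.T0.Formal
import Fermat.Agent.GZ.Tate.T6.Formal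

set_option autoImplicit false

noncomputable section

namespace Fermat.Agent.GZ.Tate.T6

open ModularCurve PowerSeries Fermat.Agent.S16.L1h67 Fermat.Agent.GZ.Tate.T0

variable {K : Type*} [Field K] (φ : PowerSeries ℤ →+* K)

theorem isUnit_map_of_constantCoeff_one {f : PowerSeries ℤ} (hf : constantCoeff f = 1) :
    IsUnit (φ f) := by
  have h : IsUnit f := by
    rw [PowerSeries.isUnit_iff_constantCoeff, hf]
    exact isUnit_one
  exact h.map φ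

theorem map_ne_zero_of_constantCoeff_one {f : PowerSeries ℤ} (hf : constantCoeff f = 1) :
    φ f ≠ 0 :=
  (isUnit_map_of_constantCoeff_one φ hf).ne_zero

theorem map_jNum_ne_zero : φ jNum ≠ 0 :=
  map_ne_zero_of_constantCoeff_one φ constantCoeff_jNum

theorem map_e4Z_ne_zero : φ e4Z ≠ 0 :=
  map_ne_zero_of_constantCoeff_one φ constantCoeff_e4Z

section

variable (hφ : φ X ≠ 0)

include hφ

theorem map_deltaZ_ne_zero : φ deltaZ ≠ 0 := by
  rw [Fermat.Agent.GJ.Haupt.deltaZ_eq, map_mul]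
  exact mul_ne_zero hφ (map_ne_zero_of_constantCoeff_one φ constantCoeff_dedekindEtaUnit)

theorem jVal_ne_zero : jVal φ ≠ 0 :=
  mul_ne_zero (inv_ne_zero hφ) (map_jNum_ne_zero φ)

/-- `j · Δ = E₄³`. -/
theorem jVal_mul_deltaZ : jVal φ * φ deltaZ = φ e4Z ^ 3 := by
  have h1 : jNum * deltaZ = X * e4Z ^ 3 := by
    have := jNum_mul_Δ
    rwa [tateCurve_Δ, tateCurve_c₄] at this
  have h2 := congrArg φ h1
  rw [map_mul, map_mul, map_pow] at h2
  rw [jVal, mul_assoc, h2, ← mul_assoc, inv_mul_cancel₀ hφ, one_mul]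

theorem jVal_eq_div : jVal φ = φ e4Z ^ 3 / φ deltaZ := by
  rw [eq_div_iff (map_deltaZ_ne_zero φ hφ), jVal_mul_deltaZ φ hφ]

end

/-- `E₄³ - E₆² = 1728 Δ`. -/
theorem c_relation_map : φ e4Z ^ 3 - φ e6Z ^ 2 = 1728 * φ deltaZ := by
  have h := congrArg φ e4Z_cube_sub_e6Z_sq
  rwa [map_sub, map_pow, map_pow, map_mul, map_ofNat] at h

section

variable (hφ : φ X ≠ 0)

include hφ

/-- **the `j`-value from `(c₄', c₆')`** in the output shape of the two Vélu sums. -/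
theorem jVal_of_c4_c6 {lam c4' c6' : K} (hlam : lam ≠ 0) (h1728 : (1728 : K) ≠ 0)
    (h4 : c4' = lam ^ 4 * φ e4Z) (h6 : c6' ^ 2 = lam ^ 12 * φ e6Z ^ 2) :
    c4' ^ 3 - c6' ^ 2 ≠ 0 ∧ 1728 * c4' ^ 3 / (c4' ^ 3 - c6' ^ 2) = jVal φ := by
  have hd := map_deltaZ_ne_zero φ hφ
  have hrel := c_relation_map φ
  have hkey : c4' ^ 3 - c6' ^ 2 = lam ^ 12 * (1728 * φ deltaZ) := by
    rw [h4, h6, ← hrel]
    ring
  have hne : c4' ^ 3 - c6' ^ 2 ≠ 0 := by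
    rw [hkey]
    exact mul_ne_zero (pow_ne_zero _ hlam) (mul_ne_zero h1728 hd)
  refine ⟨hne, ?_⟩
  rw [div_eq_iff hne, hkey, h4]
  linear_combination (1728 * lam ^ 12) * (jVal_mul_deltaZ φ hφ).symm

/-- the same for an elliptic curve over `K` with `Δ' = λ¹² φ(Δ)` (no condition on `1728`). -/
theorem j_eq_jVal_of_Δ (W' : WeierstrassCurve K) [W'.IsElliptic] {lam : K} (hlam : lam ≠ 0)
    (h4 : W'.c₄ = lam ^ 4 * φ e4Z) (hΔ : W'.Δ = lam ^ 12 * φ deltaZ) :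
    W'.j = jVal φ := by
  have hd := map_deltaZ_ne_zero φ hφ
  have hΔ0 : W'.Δ ≠ 0 := by
    rw [hΔ]
    exact mul_ne_zero (pow_ne_zero _ hlam) hd
  rw [WeierstrassCurve.j, Units.val_inv_eq_inv_val, WeierstrassCurve.coe_Δ',
    inv_mul_eq_iff_eq_mul₀ hΔ0, hΔ, h4]
  linear_combination (lam ^ 12) * (jVal_mul_deltaZ φ hφ).symm

/-- **`W'.j = jVal φ`** for an elliptic curve with `c₄' = λ⁴ φ(E₄)`, `c₆'² = λ¹² φ(E₆)²`. -/
theorem j_eq_jVal (W' : WeierstrassCurve K) [W'.IsElliptic] {lam : K} (hlam : lam ≠ 0)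
    (h1728 : (1728 : K) ≠ 0)
    (h4 : W'.c₄ = lam ^ 4 * φ e4Z) (h6 : W'.c₆ ^ 2 = lam ^ 12 * φ e6Z ^ 2) :
    W'.j = jVal φ := by
  apply j_eq_jVal_of_Δ φ hφ W' hlam h4
  have h1 := W'.c_relation
  have h2 := c_relation_map φ
  have h3 : (1728 : K) * W'.Δ = 1728 * (lam ^ 12 * φ deltaZ) := by
    rw [h1, h4, h6]
    linear_combination lam ^ 12 * h2
  exact mul_left_cancel₀ h1728 h3

theorem isElliptic_map_tateCurve : (tateCurve.map φ).IsElliptic := by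
  refine ⟨?_⟩
  rw [map_tateCurve_Δ]
  exact isUnit_iff_ne_zero.mpr (map_deltaZ_ne_zero φ hφ)

/-- `j(E_q) = j(q)` for the base change of the formal Tate curve. -/
theorem j_map_tateCurve :
    letI := isElliptic_map_tateCurve φ hφ
    (tateCurve.map φ).j = jVal φ := by
  have := isElliptic_map_tateCurve φ hφ
  apply j_eq_jVal_of_Δ φ hφ (tateCurve.map φ) (lam := 1) one_ne_zero
  · rw [map_tateCurve_c₄]; ring
  · rw [map_tateCurve_Δ]; ring

end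

end Fermat.Agent.GZ.Tate.T6
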