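/-
GATE-Z (S15) / [MOD-beta] leaf (T6), part D (helper91): THE CONCLUSION, over an abstract
evaluation family.

`K` an ultrametric normed field.  An `EvalFamily K` is a family of ring homs
`ev x : ℤ⟦X⟧ →+* K` (`‖x‖ < 1`; in the gate `ev x = evalInt x`, `f ↦ ∑ fₙ xⁿ`) with
`ev x X = x`, `‖ev x f - f(0)‖ ≤ ‖x‖` and `ev (x^N) f = ev x (f(X^N))`.  Then with
`jK q := q⁻¹ · ev q jNum  (= j(q) = q⁻¹ + 744 + 196884 q + ⋯)`:

* `norm_jK`            : `‖jK q‖ = ‖q‖⁻¹`;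
* `modular_eq_jK`      : `Φ(jK q, jK (q^N)) = 0` for every `data : ModularPolynomialData N`;
* `modular_eq_jK_symm` : `Φ(jK (t^p), jK t) = 0` for `p` prime;
* **`conclusion_mu`**   : (quotient by `μ_p`) if `c₄' = p⁴ E₄(q₀^p)`, `c₆'² = p¹² E₆(q₀^p)²` then
  `a' := 1728 c₄'³/(c₄'³ - c₆'²)` satisfies `Φ(a, a') = 0` and `‖a'‖ = ‖a‖^p`, `a = jK q₀`;
* **`conclusion_root`** : (quotient by `<t₀>`, `t₀^p = q₀`) if `c₄' = E₄(t₀)`, `c₆'² = E₆(t₀)²` then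
  `Φ(a, a') = 0` and `‖a'‖^p = ‖a‖`;
* `padicValRat_eq_mul_of_norm`, `padicValRat_mul_eq_of_norm` : the bridge from the norm relations
  to `padicValRat` for rational `a, a'` (norm of `K` extending the `ℓ`-adic norm of `ℚ`).
-/
import Mathlib
import Fermat.Agent.GZ.Tate.T6.Value
import Fermat.Agent.GZ.Tate.T6.Symm

set_option autoImplicit false
set_option linter.unusedSectionVars false

noncomputable section

namespace Fermat.Agent.GZ.Tate.T6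

open ModularCurve PowerSeries Fermat.Agent.S16.L1h67

/-- an evaluation family `x ↦ (f ↦ f(x))` of integral power series on the open unit disc of `K`. -/
structure EvalFamily (K : Type*) [NormedField K] where
  /-- the evaluation hom at `x` (only used for `‖x‖ < 1`) -/
  ev : K → (PowerSeries ℤ →+* K)
  ev_X : ∀ x : K, ‖x‖ < 1 → ev x X = x
  norm_sub_le : ∀ x : K, ‖x‖ < 1 → ∀ f : PowerSeries ℤ,
    ‖ev x f - ((constantCoeff f : ℤ) : K)‖ ≤ ‖x‖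
  ev_pow : ∀ x : K, ‖x‖ < 1 → ∀ (N : ℕ) (hN : N ≠ 0) (f : PowerSeries ℤ),
    ev (x ^ N) f = ev x (expand N hN f)

variable {K : Type*} [NormedField K] [IsUltrametricDist K] (E : EvalFamily K)

/-- `j(q) = q⁻¹ · jNum(q)`. -/
def jK (q : K) : K := jVal (E.ev q)

/-- `E₄(q)`. -/
def e4K (q : K) : K := E.ev q e4Z

/-- `E₆(q)`. -/
def e6K (q : K) : K := E.ev q e6Z

/-- `Δ(q)`. -/
def deltaK (q : K) : K := E.ev q deltaZ

theorem norm_eq_one_of_norm_sub_one_lt {y : K} (h : ‖y - 1‖ < 1) : ‖y‖ = 1 := by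
  have h1 := IsUltrametricDist.norm_add_eq_max_of_norm_ne_norm (x := (1 : K)) (y := y - 1)
    (by rw [norm_one]; exact ne_of_gt h)
  rw [add_sub_cancel, norm_one, max_eq_left h.le] at h1
  exact h1

variable {q : K}

theorem norm_ev_eq_one (hq1 : ‖q‖ < 1) {f : PowerSeries ℤ} (hf : constantCoeff f = 1) :
    ‖E.ev q f‖ = 1 := by
  apply norm_eq_one_of_norm_sub_one_lt
  have h := E.norm_sub_le q hq1 f
  rw [hf, Int.cast_one] at h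
  exact lt_of_le_of_lt h hq1

theorem ev_X_ne_zero (hq0 : q ≠ 0) (hq1 : ‖q‖ < 1) : E.ev q X ≠ 0 := by
  rw [E.ev_X q hq1]; exact hq0

theorem norm_pow_lt_one (hq1 : ‖q‖ < 1) {N : ℕ} (hN : N ≠ 0) : ‖q ^ N‖ < 1 := by
  rw [norm_pow]
  exact pow_lt_one₀ (norm_nonneg q) hq1 hN

/-- **`‖j(q)‖ = ‖q‖⁻¹`**. -/
theorem norm_jK (hq1 : ‖q‖ < 1) : ‖jK E q‖ = ‖q‖⁻¹ := by
  rw [jK, jVal, norm_mul, norm_inv, E.ev_X q hq1, norm_ev_eq_one E hq1 constantCoeff_jNum,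
    mul_one]

theorem norm_jK_pow (hq1 : ‖q‖ < 1) {N : ℕ} (hN : N ≠ 0) :
    ‖jK E (q ^ N)‖ = ‖jK E q‖ ^ N := by
  rw [norm_jK E (norm_pow_lt_one hq1 hN), norm_jK E hq1, norm_pow, inv_pow]

theorem one_lt_norm_jK (hq0 : q ≠ 0) (hq1 : ‖q‖ < 1) : 1 < ‖jK E q‖ := by
  rw [norm_jK E hq1]
  exact (one_lt_inv₀ (norm_pos_iff.mpr hq0)).mpr hq1

theorem jK_eq_div (hq0 : q ≠ 0) (hq1 : ‖q‖ < 1) : jK E q = e4K E q ^ 3 / deltaK E q :=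
  jVal_eq_div (E.ev q) (ev_X_ne_zero E hq0 hq1)

theorem deltaK_ne_zero (hq0 : q ≠ 0) (hq1 : ‖q‖ < 1) : deltaK E q ≠ 0 :=
  map_deltaZ_ne_zero (E.ev q) (ev_X_ne_zero E hq0 hq1)

theorem c_relation_K : e4K E q ^ 3 - e6K E q ^ 2 = 1728 * deltaK E q :=
  c_relation_map (E.ev q)

/-- **`Φ(j(q), j(q^N)) = 0`**. -/
theorem modular_eq_jK {N : ℕ} [NeZero N] (data : ModularPolynomialData N) (hq0 : q ≠ 0)
    (hq1 : ‖q‖ < 1) :
    data.Φ.eval₂ (Polynomial.eval₂RingHom (Int.castRingHom K) (jK E q)) (jK E (q ^ N)) = 0 :=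
  modular_eq' (E.ev q) (ev_X_ne_zero E hq0 hq1) (E.ev (q ^ N))
    (fun f => E.ev_pow q hq1 N (NeZero.ne N) f) data

/-- **`Φ(j(t^p), j(t)) = 0`** for `p` prime. -/
theorem modular_eq_jK_symm {p : ℕ} [NeZero p] (hp : p.Prime) (data : ModularPolynomialData p)
    {t : K} (ht0 : t ≠ 0) (ht1 : ‖t‖ < 1) :
    data.Φ.eval₂ (Polynomial.eval₂RingHom (Int.castRingHom K) (jK E (t ^ p))) (jK E t) = 0 :=
  modular_eq_symm' (E.ev t) (ev_X_ne_zero E ht0 ht1) (E.ev (t ^ p))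
    (fun f => E.ev_pow t ht1 p (NeZero.ne p) f) (symmEq_of_prime hp data)

/-! ### the conclusion (T6) -/

section Conclusion

variable {p : ℕ} [NeZero p] (data : ModularPolynomialData p)

/-- **(T6), quotient by `μ_p`**: `(c₄', c₆') = (p⁴ E₄(q₀^p), ∓ p⁶ E₆(q₀^p))` ⟹ the `j`-invariant
`a'` of the quotient is `j(q₀^p)`: `Φ_p(a, a') = 0` and `‖a'‖ = ‖a‖^p`. -/
theorem conclusion_mu {q₀ : K} (hq0 : q₀ ≠ 0) (hq1 : ‖q₀‖ < 1) (hpK : (p : K) ≠ 0)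
    (h1728 : (1728 : K) ≠ 0) {c4' c6' : K}
    (h4 : c4' = (p : K) ^ 4 * e4K E (q₀ ^ p)) (h6 : c6' ^ 2 = (p : K) ^ 12 * e6K E (q₀ ^ p) ^ 2) :
    c4' ^ 3 - c6' ^ 2 ≠ 0 ∧
      1728 * c4' ^ 3 / (c4' ^ 3 - c6' ^ 2) = jK E (q₀ ^ p) ∧
      data.Φ.eval₂ (Polynomial.eval₂RingHom (Int.castRingHom K) (jK E q₀))
        (1728 * c4' ^ 3 / (c4' ^ 3 - c6' ^ 2)) = 0 ∧
      ‖1728 * c4' ^ 3 / (c4' ^ 3 - c6' ^ 2)‖ = ‖jK E q₀‖ ^ p := by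
  have hp0 : p ≠ 0 := NeZero.ne p
  have hq1' := norm_pow_lt_one hq1 hp0
  have hq0' : q₀ ^ p ≠ 0 := pow_ne_zero _ hq0
  obtain ⟨hne, hj⟩ := jVal_of_c4_c6 (E.ev (q₀ ^ p)) (ev_X_ne_zero E hq0' hq1') hpK h1728 h4 h6
  refine ⟨hne, hj, ?_, ?_⟩
  · rw [hj]; exact modular_eq_jK E data hq0 hq1
  · rw [hj]; exact norm_jK_pow E hq1 hp0

/-- **(T6), quotient by `<t₀>`, `t₀^p = q₀`**: `(c₄', c₆') = (E₄(t₀), ∓ E₆(t₀))` ⟹ the
`j`-invariant `a'` of the quotient is `j(t₀)`: `Φ_p(a, a') = 0` and `‖a'‖^p = ‖a‖`. -/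
theorem conclusion_root (hp : p.Prime) {q₀ t₀ : K} (hq0 : q₀ ≠ 0) (hq1 : ‖q₀‖ < 1)
    (ht : t₀ ^ p = q₀) (h1728 : (1728 : K) ≠ 0) {c4' c6' : K}
    (h4 : c4' = e4K E t₀) (h6 : c6' ^ 2 = e6K E t₀ ^ 2) :
    c4' ^ 3 - c6' ^ 2 ≠ 0 ∧
      1728 * c4' ^ 3 / (c4' ^ 3 - c6' ^ 2) = jK E t₀ ∧
      data.Φ.eval₂ (Polynomial.eval₂RingHom (Int.castRingHom K) (jK E q₀))
        (1728 * c4' ^ 3 / (c4' ^ 3 - c6' ^ 2)) = 0 ∧
      ‖1728 * c4' ^ 3 / (c4' ^ 3 - c6' ^ 2)‖ ^ p = ‖jK E q₀‖ := by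
  have hp0 : p ≠ 0 := NeZero.ne p
  have ht0 : t₀ ≠ 0 := by
    rintro rfl
    rw [zero_pow hp0] at ht
    exact hq0 ht.symm
  have ht1 : ‖t₀‖ < 1 := by
    by_contra hcon
    rw [not_lt] at hcon
    have : 1 ≤ ‖q₀‖ := by
      rw [← ht, norm_pow]
      exact one_le_pow₀ hcon
    exact absurd hq1 (not_lt.mpr this)
  obtain ⟨hne, hj⟩ := jVal_of_c4_c6 (E.ev t₀) (ev_X_ne_zero E ht0 ht1) (lam := 1) (c4' := c4')
    (c6' := c6') one_ne_zero h1728 (by rw [h4]; simp [e4K]) (by rw [h6]; simp [e6K])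
  refine ⟨hne, hj, ?_, ?_⟩
  · rw [hj, ← ht]; exact modular_eq_jK_symm E hp data ht0 ht1
  · rw [hj, ← ht]; exact (norm_jK_pow E ht1 hp0).symm

end Conclusion

/-! ### bridge to `padicValRat` -/

section Bridge

variable {ℓ : ℕ} [Fact ℓ.Prime]

theorem norm_ratCast_eq_zpow [CharZero K]
    (hK : ∀ x : ℚ, ‖(x : K)‖ = ((padicNorm ℓ x : ℚ) : ℝ)) {x : ℚ} (hx : x ≠ 0) :
    ‖(x : K)‖ = (ℓ : ℝ) ^ (-padicValRat ℓ x) := by
  rw [hK, padicNorm.eq_zpow_of_nonzero hx]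
  push_cast
  rfl

theorem zpow_natCast_injective_of_prime : Function.Injective (fun n : ℤ => (ℓ : ℝ) ^ n) := by
  have h1 : (1 : ℝ) < ℓ := by exact_mod_cast (Fact.out : ℓ.Prime).one_lt
  exact zpow_right_injective₀ (by linarith) h1.ne'

/-- `‖a'‖ = ‖a‖^p ⟹ v(a') = p · v(a)`. -/
theorem padicValRat_eq_mul_of_norm [CharZero K]
    (hK : ∀ x : ℚ, ‖(x : K)‖ = ((padicNorm ℓ x : ℚ) : ℝ)) {a a' : ℚ} (ha : a ≠ 0) (ha' : a' ≠ 0)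
    {p : ℕ} (h : ‖(a' : K)‖ = ‖(a : K)‖ ^ p) :
    padicValRat ℓ a' = p * padicValRat ℓ a := by
  rw [norm_ratCast_eq_zpow hK ha, norm_ratCast_eq_zpow hK ha', ← zpow_natCast, ← zpow_mul] at h
  have := zpow_natCast_injective_of_prime (ℓ := ℓ) h
  linarith

/-- `‖a'‖^p = ‖a‖ ⟹ p · v(a') = v(a)`. -/
theorem padicValRat_mul_eq_of_norm [CharZero K]
    (hK : ∀ x : ℚ, ‖(x : K)‖ = ((padicNorm ℓ x : ℚ) : ℝ)) {a a' : ℚ} (ha : a ≠ 0) (ha' : a' ≠ 0)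
    {p : ℕ} (h : ‖(a' : K)‖ ^ p = ‖(a : K)‖) :
    p * padicValRat ℓ a' = padicValRat ℓ a := by
  rw [norm_ratCast_eq_zpow hK ha, norm_ratCast_eq_zpow hK ha', ← zpow_natCast, ← zpow_mul] at h
  have := zpow_natCast_injective_of_prime (ℓ := ℓ) h
  linarith

end Bridge

end Fermat.Agent.GZ.Tate.T6
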