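/-
GATE-Z (S15) / [MOD-beta] leaf (T6), part E (helper91): (T6) BINDER-FREE — the `EvalFamily` of
`T6/Main.lean` instantiated by helper3's `T0.ev` / `T0.evalInt` (`GZ/Tate/T0/EvalInt.lean`).

`K` complete ultrametric normed field, `jq q := q⁻¹ * ev q jNum` (`= j(q)`; `T0.tateCurveAt_j`,
`T0.pinned_j` identify it with the `j`-invariant of the Tate curve `E_q`).

* `ev_expand`        : `ev (x^N) f = ev x (expand N f)`   (`‖x‖ < 1`);
* `evalFamily K`     : the evaluation family;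
* `norm_jq`          : `‖jq q‖ = ‖q‖⁻¹`;
* `modular_eq_jq`    : `Φ(jq q, jq (q^N)) = 0`;   `modular_eq_jq_symm : Φ(jq (t^p), jq t) = 0`;
* **`t6_mu`**        : `c₄' = p⁴ · ev (q₀^p) e4Z`, `c₆'² = p¹² · (ev (q₀^p) e6Z)²` ⟹
  `a' := 1728 c₄'³/(c₄'³ - c₆'²) = jq (q₀^p)`, `Φ(jq q₀, a') = 0`, `‖a'‖ = ‖jq q₀‖^p`;
* **`t6_root`**      : `t₀^p = q₀`, `c₄' = ev t₀ e4Z`, `c₆'² = (ev t₀ e6Z)²` ⟹
  `a' = jq t₀`, `Φ(jq q₀, a') = 0`, `‖a'‖^p = ‖jq q₀‖`.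
-/
import Mathlib
import Fermat.Agent.GZ.Tate.T0.EvalInt
import Fermat.Agent.GZ.Tate.T6.Main

set_option autoImplicit false
set_option linter.unusedSectionVars false

noncomputable section

namespace Fermat.Agent.GZ.Tate.T6

open ModularCurve PowerSeries Fermat.Agent.S16.L1h67 Fermat.Agent.GZ.Tate.T0

variable {K : Type*} [NormedField K] [IsUltrametricDist K] [CompleteSpace K]

/-- **substitution**: evaluating at `x^N` is evaluating `f(X^N)` at `x`. -/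
theorem ev_expand {x : K} (N : ℕ) (hN : N ≠ 0) (f : PowerSeries ℤ) :
    ev (x ^ N) f = ev x (expand N hN f) := by
  have hinj : Function.Injective (fun m : ℕ => N * m) :=
    fun a b h => Nat.eq_of_mul_eq_mul_left (Nat.pos_of_ne_zero hN) h
  have hsupp : Function.support (evTerm x (expand N hN f)) ⊆ Set.range (fun m : ℕ => N * m) := by
    intro n hn
    by_contra hcon
    apply hn
    have hnd : ¬ N ∣ n := fun ⟨m, hm⟩ => hcon ⟨m, hm.symm⟩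
    rw [evTerm, coeff_expand_of_not_dvd N hN f hnd]
    simp
  have h1 := hinj.tsum_eq hsupp
  rw [ev, ev, ← h1]
  refine tsum_congr fun m => ?_
  show evTerm (x ^ N) f m = evTerm x (expand N hN f) (N * m)
  rw [evTerm, evTerm, coeff_expand_mul, pow_mul]

variable (K) in
/-- the evaluation family of a complete ultrametric normed field. -/
def evalFamily : EvalFamily K where
  ev x := if hx : ‖x‖ < 1 then evalInt x hx else evalInt 0 (by rw [norm_zero]; exact one_pos)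
  ev_X x hx := by
    rw [dif_pos hx]
    exact ev_X x
  norm_sub_le x hx f := by
    rw [dif_pos hx]
    exact norm_ev_sub_constantCoeff_le hx f
  ev_pow x hx N hN f := by
    have hxN : ‖x ^ N‖ < 1 := norm_pow_lt_one hx hN
    rw [dif_pos hx, dif_pos hxN]
    exact ev_expand N hN f

theorem evalFamily_ev {x : K} (hx : ‖x‖ < 1) (f : PowerSeries ℤ) :
    (evalFamily K).ev x f = ev x f := by
  show (if hx : ‖x‖ < 1 then evalInt x hx else _) f = _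
  rw [dif_pos hx]
  rfl

/-- `j(q) = q⁻¹ · jNum(q)`. -/
def jq (q : K) : K := q⁻¹ * ev q jNum

theorem jK_evalFamily {q : K} (hq : ‖q‖ < 1) : jK (evalFamily K) q = jq q := by
  rw [jK, jVal, evalFamily_ev hq, evalFamily_ev hq, ev_X, jq]

theorem e4K_evalFamily {q : K} (hq : ‖q‖ < 1) : e4K (evalFamily K) q = ev q e4Z :=
  evalFamily_ev hq _

theorem e6K_evalFamily {q : K} (hq : ‖q‖ < 1) : e6K (evalFamily K) q = ev q e6Z :=
  evalFamily_ev hq _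

theorem deltaK_evalFamily {q : K} (hq : ‖q‖ < 1) : deltaK (evalFamily K) q = ev q deltaZ :=
  evalFamily_ev hq _

variable {q : K}

/-- **`‖j(q)‖ = ‖q‖⁻¹`**. -/
theorem norm_jq (hq1 : ‖q‖ < 1) : ‖jq q‖ = ‖q‖⁻¹ := by
  rw [← jK_evalFamily hq1]
  exact norm_jK _ hq1

theorem one_lt_norm_jq (hq0 : q ≠ 0) (hq1 : ‖q‖ < 1) : 1 < ‖jq q‖ := by
  rw [← jK_evalFamily hq1]
  exact one_lt_norm_jK _ hq0 hq1

/-- `j = E₄³/Δ`. -/
theorem jq_eq_div (hq0 : q ≠ 0) (hq1 : ‖q‖ < 1) : jq q = ev q e4Z ^ 3 / ev q deltaZ := by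
  rw [← jK_evalFamily hq1, ← e4K_evalFamily hq1, ← deltaK_evalFamily hq1]
  exact jK_eq_div _ hq0 hq1

/-- **`Φ(j(q), j(q^N)) = 0`**. -/
theorem modular_eq_jq {N : ℕ} [NeZero N] (data : ModularPolynomialData N) (hq0 : q ≠ 0)
    (hq1 : ‖q‖ < 1) :
    data.Φ.eval₂ (Polynomial.eval₂RingHom (Int.castRingHom K) (jq q)) (jq (q ^ N)) = 0 := by
  rw [← jK_evalFamily hq1, ← jK_evalFamily (norm_pow_lt_one hq1 (NeZero.ne N))]
  exact modular_eq_jK _ data hq0 hq1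

/-- **`Φ(j(t^p), j(t)) = 0`**, `p` prime. -/
theorem modular_eq_jq_symm {p : ℕ} [NeZero p] (hp : p.Prime) (data : ModularPolynomialData p)
    {t : K} (ht0 : t ≠ 0) (ht1 : ‖t‖ < 1) :
    data.Φ.eval₂ (Polynomial.eval₂RingHom (Int.castRingHom K) (jq (t ^ p))) (jq t) = 0 := by
  rw [← jK_evalFamily ht1, ← jK_evalFamily (norm_pow_lt_one ht1 (NeZero.ne p))]
  exact modular_eq_jK_symm _ hp data ht0 ht1

section Conclusion

variable {p : ℕ} [NeZero p] (data : ModularPolynomialData p)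

/-- **(T6), quotient by `μ_p`**. -/
theorem t6_mu {q₀ : K} (hq0 : q₀ ≠ 0) (hq1 : ‖q₀‖ < 1) (hpK : (p : K) ≠ 0)
    (h1728 : (1728 : K) ≠ 0) {c4' c6' : K}
    (h4 : c4' = (p : K) ^ 4 * ev (q₀ ^ p) e4Z) (h6 : c6' ^ 2 = (p : K) ^ 12 * ev (q₀ ^ p) e6Z ^ 2) :
    c4' ^ 3 - c6' ^ 2 ≠ 0 ∧
      1728 * c4' ^ 3 / (c4' ^ 3 - c6' ^ 2) = jq (q₀ ^ p) ∧
      data.Φ.eval₂ (Polynomial.eval₂RingHom (Int.castRingHom K) (jq q₀))
        (1728 * c4' ^ 3 / (c4' ^ 3 - c6' ^ 2)) = 0 ∧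
      ‖1728 * c4' ^ 3 / (c4' ^ 3 - c6' ^ 2)‖ = ‖jq q₀‖ ^ p := by
  have hqp := norm_pow_lt_one hq1 (NeZero.ne p)
  have h := conclusion_mu (evalFamily K) data hq0 hq1 hpK h1728 (c4' := c4') (c6' := c6')
    (by rw [e4K_evalFamily hqp]; exact h4) (by rw [e6K_evalFamily hqp]; exact h6)
  rwa [jK_evalFamily hqp, jK_evalFamily hq1] at h

/-- **(T6), quotient by `<t₀>`, `t₀^p = q₀`**. -/
theorem t6_root (hp : p.Prime) {q₀ t₀ : K} (hq0 : q₀ ≠ 0) (hq1 : ‖q₀‖ < 1)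
    (ht : t₀ ^ p = q₀) (h1728 : (1728 : K) ≠ 0) {c4' c6' : K}
    (h4 : c4' = ev t₀ e4Z) (h6 : c6' ^ 2 = ev t₀ e6Z ^ 2) :
    c4' ^ 3 - c6' ^ 2 ≠ 0 ∧
      1728 * c4' ^ 3 / (c4' ^ 3 - c6' ^ 2) = jq t₀ ∧
      data.Φ.eval₂ (Polynomial.eval₂RingHom (Int.castRingHom K) (jq q₀))
        (1728 * c4' ^ 3 / (c4' ^ 3 - c6' ^ 2)) = 0 ∧
      ‖1728 * c4' ^ 3 / (c4' ^ 3 - c6' ^ 2)‖ ^ p = ‖jq q₀‖ := by
  have ht1 : ‖t₀‖ < 1 := by
    by_contra hcon
    rw [not_lt] at hcon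
    have : 1 ≤ ‖q₀‖ := by
      rw [← ht, norm_pow]
      exact one_le_pow₀ hcon
    exact absurd hq1 (not_lt.mpr this)
  have h := conclusion_root (evalFamily K) data hp hq0 hq1 ht h1728 (c4' := c4') (c6' := c6')
    (by rw [e4K_evalFamily ht1]; exact h4) (by rw [e6K_evalFamily ht1]; exact h6)
  rwa [jK_evalFamily ht1, jK_evalFamily hq1] at h

end Conclusion

end Fermat.Agent.GZ.Tate.T6
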