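/-
GATE-Z (S15) / [MOD-beta] leaf (T6), part F (helper91): THE RATIONAL FORM consumed by (MOD).

`a, a', c₄', c₆' : ℚ` (the `j`-invariant of `W`, and the Vélu data of `(W, <Q>)`), `K` a complete
ultrametric normed field of characteristic zero whose norm restricts to the `ℓ`-adic norm on `ℚ`
(`hK`; for `K = ℂ_[ℓ]` this is `norm_ratCast_padicComplex`), `q₀ : K` with `(a : K) = jq q₀`:

* **`t6_mu_rat`**   : `(c₄' : K) = p⁴ · ev (q₀^p) e4Z`, `(c₆' : K)² = p¹² (ev (q₀^p) e6Z)²`,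
  `a' = 1728 c₄'³/(c₄'³ - c₆'²)` ⟹ `Φ_p(a, a') = 0` (over `ℚ`) and `v_ℓ(a') = p · v_ℓ(a)`;
* **`t6_root_rat`** : `t₀^p = q₀`, `(c₄' : K) = ev t₀ e4Z`, `(c₆' : K)² = (ev t₀ e6Z)²` ⟹
  `Φ_p(a, a') = 0` and `p · v_ℓ(a') = v_ℓ(a)`;
* `t6_mu_padicComplex`, `t6_root_padicComplex` : the same at `K = ℂ_[ℓ]`, no norm binder.
-/
import Mathlib
import Fermat.Agent.GZ.Tate.T6.Inst

set_option autoImplicit false
set_option linter.unusedSectionVars false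

noncomputable section

namespace Fermat.Agent.GZ.Tate.T6

open ModularCurve PowerSeries Fermat.Agent.S16.L1h67 Fermat.Agent.GZ.Tate.T0

/-- the norm of `ℂ_[ℓ]` restricts to the `ℓ`-adic norm of `ℚ`. -/
theorem norm_ratCast_padicComplex (ℓ : ℕ) [Fact ℓ.Prime] (x : ℚ) :
    ‖(x : ℂ_[ℓ])‖ = ((padicNorm ℓ x : ℚ) : ℝ) := by
  have h1 : ((x : ℚ_[ℓ]) : ℂ_[ℓ]) = (x : ℂ_[ℓ]) := by
    rw [← map_ratCast (algebraMap ℚ_[ℓ] ℂ_[ℓ]) x]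
    rfl
  rw [← h1, PadicComplex.norm_extends', Padic.eq_padicNorm]

section

variable {K : Type*} [NormedField K] [IsUltrametricDist K] [CompleteSpace K] [CharZero K]

/-- descent of a polynomial identity from `K` to `ℚ`. -/
theorem eval₂_rat_of_eval₂ (Φ : Polynomial (Polynomial ℤ)) {a a' : ℚ}
    (h : Φ.eval₂ (Polynomial.eval₂RingHom (Int.castRingHom K) (a : K)) (a' : K) = 0) :
    Φ.eval₂ (Polynomial.eval₂RingHom (Int.castRingHom ℚ) a) a' = 0 := by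
  apply (Rat.castHom K).injective
  rw [map_zero, Polynomial.hom_eval₂]
  have h1 : (Rat.castHom K).comp (Polynomial.eval₂RingHom (Int.castRingHom ℚ) a) =
      Polynomial.eval₂RingHom (Int.castRingHom K) (a : K) := by
    refine Polynomial.ringHom_ext' (Subsingleton.elim _ _) ?_
    simp
  rw [h1]
  exact h

variable {ℓ : ℕ} [Fact ℓ.Prime] {p : ℕ} [NeZero p] (data : ModularPolynomialData p)

theorem ne_zero_of_one_lt_norm {x : ℚ} (h : 1 < ‖(x : K)‖) : x ≠ 0 := by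
  rintro rfl
  rw [Rat.cast_zero, norm_zero] at h
  linarith

/-- **(T6), quotient by `μ_p`, rational form**. -/
theorem t6_mu_rat (hK : ∀ x : ℚ, ‖(x : K)‖ = ((padicNorm ℓ x : ℚ) : ℝ))
    {a a' c4' c6' : ℚ} {q₀ : K} (hq0 : q₀ ≠ 0) (hq1 : ‖q₀‖ < 1) (ha : (a : K) = jq q₀)
    (h4 : (c4' : K) = (p : K) ^ 4 * ev (q₀ ^ p) e4Z)
    (h6 : (c6' : K) ^ 2 = (p : K) ^ 12 * ev (q₀ ^ p) e6Z ^ 2)
    (ha' : a' = 1728 * c4' ^ 3 / (c4' ^ 3 - c6' ^ 2)) :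
    c4' ^ 3 - c6' ^ 2 ≠ 0 ∧ (a' : K) = jq (q₀ ^ p) ∧
      data.Φ.eval₂ (Polynomial.eval₂RingHom (Int.castRingHom ℚ) a) a' = 0 ∧
      padicValRat ℓ a' = p * padicValRat ℓ a := by
  have hpK : (p : K) ≠ 0 := Nat.cast_ne_zero.mpr (NeZero.ne p)
  have h1728 : (1728 : K) ≠ 0 := by norm_num
  obtain ⟨hne, hj, hΦ, hn⟩ := t6_mu data hq0 hq1 hpK h1728 h4 h6
  have hcast : (a' : K) = 1728 * (c4' : K) ^ 3 / ((c4' : K) ^ 3 - (c6' : K) ^ 2) := by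
    rw [ha']; push_cast; ring
  have hne' : c4' ^ 3 - c6' ^ 2 ≠ 0 := by
    intro h0
    apply hne
    have := congrArg (fun x : ℚ => (x : K)) h0
    simpa using this
  rw [← hcast] at hj hΦ hn
  rw [← ha] at hΦ hn
  have ha1 : 1 < ‖(a : K)‖ := by rw [ha]; exact one_lt_norm_jq hq0 hq1
  have ha'1 : 1 < ‖(a' : K)‖ := by
    rw [hn]
    exact one_lt_pow₀ ha1 (NeZero.ne p)
  exact ⟨hne', hj, eval₂_rat_of_eval₂ data.Φ hΦ,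
    padicValRat_eq_mul_of_norm hK (ne_zero_of_one_lt_norm ha1) (ne_zero_of_one_lt_norm ha'1) hn⟩

/-- **(T6), quotient by `<t₀>`, `t₀^p = q₀`, rational form**. -/
theorem t6_root_rat (hK : ∀ x : ℚ, ‖(x : K)‖ = ((padicNorm ℓ x : ℚ) : ℝ)) (hp : p.Prime)
    {a a' c4' c6' : ℚ} {q₀ t₀ : K} (hq0 : q₀ ≠ 0) (hq1 : ‖q₀‖ < 1) (ha : (a : K) = jq q₀)
    (ht : t₀ ^ p = q₀)
    (h4 : (c4' : K) = ev t₀ e4Z) (h6 : (c6' : K) ^ 2 = ev t₀ e6Z ^ 2)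
    (ha' : a' = 1728 * c4' ^ 3 / (c4' ^ 3 - c6' ^ 2)) :
    c4' ^ 3 - c6' ^ 2 ≠ 0 ∧ (a' : K) = jq t₀ ∧
      data.Φ.eval₂ (Polynomial.eval₂RingHom (Int.castRingHom ℚ) a) a' = 0 ∧
      p * padicValRat ℓ a' = padicValRat ℓ a := by
  have h1728 : (1728 : K) ≠ 0 := by norm_num
  obtain ⟨hne, hj, hΦ, hn⟩ := t6_root data hp hq0 hq1 ht h1728 h4 h6
  have hcast : (a' : K) = 1728 * (c4' : K) ^ 3 / ((c4' : K) ^ 3 - (c6' : K) ^ 2) := by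
    rw [ha']; push_cast; ring
  have hne' : c4' ^ 3 - c6' ^ 2 ≠ 0 := by
    intro h0
    apply hne
    have := congrArg (fun x : ℚ => (x : K)) h0
    simpa using this
  rw [← hcast] at hj hΦ hn
  rw [← ha] at hΦ hn
  have ha1 : 1 < ‖(a : K)‖ := by rw [ha]; exact one_lt_norm_jq hq0 hq1
  have ha'1 : 1 < ‖(a' : K)‖ := by
    by_contra hcon
    rw [not_lt] at hcon
    have : ‖(a' : K)‖ ^ p ≤ 1 := pow_le_one₀ (norm_nonneg _) hcon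
    rw [hn] at this
    linarith
  exact ⟨hne', hj, eval₂_rat_of_eval₂ data.Φ hΦ,
    padicValRat_mul_eq_of_norm hK (ne_zero_of_one_lt_norm ha1) (ne_zero_of_one_lt_norm ha'1) hn⟩

end

section PadicComplex

variable {ℓ : ℕ} [Fact ℓ.Prime] {p : ℕ} [NeZero p] (data : ModularPolynomialData p)

/-- (T6), quotient by `μ_p`, at `K = ℂ_[ℓ]`. -/
theorem t6_mu_padicComplex {a a' c4' c6' : ℚ} {q₀ : ℂ_[ℓ]} (hq0 : q₀ ≠ 0) (hq1 : ‖q₀‖ < 1)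
    (ha : (a : ℂ_[ℓ]) = jq q₀)
    (h4 : (c4' : ℂ_[ℓ]) = (p : ℂ_[ℓ]) ^ 4 * ev (q₀ ^ p) e4Z)
    (h6 : (c6' : ℂ_[ℓ]) ^ 2 = (p : ℂ_[ℓ]) ^ 12 * ev (q₀ ^ p) e6Z ^ 2)
    (ha' : a' = 1728 * c4' ^ 3 / (c4' ^ 3 - c6' ^ 2)) :
    c4' ^ 3 - c6' ^ 2 ≠ 0 ∧ (a' : ℂ_[ℓ]) = jq (q₀ ^ p) ∧
      data.Φ.eval₂ (Polynomial.eval₂RingHom (Int.castRingHom ℚ) a) a' = 0 ∧
      padicValRat ℓ a' = p * padicValRat ℓ a :=
  t6_mu_rat data (norm_ratCast_padicComplex ℓ) hq0 hq1 ha h4 h6 ha'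

/-- (T6), quotient by `<t₀>`, at `K = ℂ_[ℓ]`. -/
theorem t6_root_padicComplex (hp : p.Prime) {a a' c4' c6' : ℚ} {q₀ t₀ : ℂ_[ℓ]} (hq0 : q₀ ≠ 0)
    (hq1 : ‖q₀‖ < 1) (ha : (a : ℂ_[ℓ]) = jq q₀) (ht : t₀ ^ p = q₀)
    (h4 : (c4' : ℂ_[ℓ]) = ev t₀ e4Z) (h6 : (c6' : ℂ_[ℓ]) ^ 2 = ev t₀ e6Z ^ 2)
    (ha' : a' = 1728 * c4' ^ 3 / (c4' ^ 3 - c6' ^ 2)) :
    c4' ^ 3 - c6' ^ 2 ≠ 0 ∧ (a' : ℂ_[ℓ]) = jq t₀ ∧
      data.Φ.eval₂ (Polynomial.eval₂RingHom (Int.castRingHom ℚ) a) a' = 0 ∧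
      p * padicValRat ℓ a' = padicValRat ℓ a :=
  t6_root_rat data (norm_ratCast_padicComplex ℓ) hp hq0 hq1 ha ht h4 h6 ha'

end PadicComplex

end Fermat.Agent.GZ.Tate.T6
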