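/-
GATE-Z (S15) / [MOD-beta] leaf (T6), part G (helper91): `RelQ` — the relation in the PINNED form
of `GZ/Mod/Pin.lean` (helper80), in BOTH cases, no `ModularPolynomialData` needed.

* `exists_int_multiple`     : clearing denominators in `MvPolynomial σ ℚ`;
* `aeval_int_of_aeval_rat`  : a relation `H(j(q), j(q^N)) = 0` with integral `H` holds in `ℤ((X))`;
* `aeval_of_ringHom`        : it specialises along `liftL φ`;
* `symm_rel`                : `G(j(q), j(q^p)) = 0 ⟹ G(j(q^p), j(q)) = 0` for `p` prime (`wAut`);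
* **`relQ_mu`**   : `(a : K) = jq q₀`, `(a' : K) = jq (q₀^p)` ⟹ `RelQ p a a'`;
* **`relQ_root`** : `p` prime, `(a : K) = jq (t^p)`, `(a' : K) = jq t` ⟹ `RelQ p a a'`;
* `t6_mu_relQ`, `t6_root_relQ` (+ `_padicComplex`) : (T6) in rational form with `RelQ`, any scaling
  `lam` of the Vélu data.
-/
import Mathlib
import Fermat.Agent.GZ.Mod.Pin
import Fermat.Agent.GZ.Tate.T6.Rat

set_option autoImplicit false
set_option linter.unusedSectionVars false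

noncomputable section

namespace Fermat.Agent.GZ.Tate.T6

open ModularCurve PowerSeries Fermat.Agent.S16.L1h67 Fermat.Agent.GZ.Tate.T0 Fermat.Agent.GZ.Mod
open Fermat.Agent.S24 Fermat.Agent.S24_helper62 Fermat.Agent.GK.AL

/-! ### clearing denominators -/

theorem exists_int_multiple {σ : Type*} (G : MvPolynomial σ ℚ) :
    ∃ n : ℤ, n ≠ 0 ∧ ∃ H : MvPolynomial σ ℤ,
      H.map (Int.castRingHom ℚ) = MvPolynomial.C (n : ℚ) * G := by
  induction G using MvPolynomial.induction_on with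
  | C r =>
    refine ⟨r.den, by exact_mod_cast r.den_ne_zero, MvPolynomial.C r.num, ?_⟩
    rw [MvPolynomial.map_C, ← map_mul]
    congr 1
    have := Rat.den_mul_eq_num r
    push_cast
    exact_mod_cast this.symm
  | add G₁ G₂ h₁ h₂ =>
    obtain ⟨n₁, hn₁, H₁, e₁⟩ := h₁
    obtain ⟨n₂, hn₂, H₂, e₂⟩ := h₂
    refine ⟨n₁ * n₂, mul_ne_zero hn₁ hn₂, MvPolynomial.C n₂ * H₁ + MvPolynomial.C n₁ * H₂, ?_⟩
    rw [map_add, map_mul, map_mul, e₁, e₂, MvPolynomial.map_C, MvPolynomial.map_C]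
    simp only [eq_intCast, Int.cast_mul, map_mul]
    ring
  | mul_X G i h =>
    obtain ⟨n, hn, H, e⟩ := h
    refine ⟨n, hn, H * MvPolynomial.X i, ?_⟩
    rw [map_mul, e, MvPolynomial.map_X]
    ring

/-! ### relations over `ℤ((X))` and their specialisation -/

variable {N : ℕ} [NeZero N]

theorem coeffMap_comp_vec :
    (fun i => coeffMap (Int.castRingHom ℚ) (![jqModC ℤ, jqNModC ℤ N] i)) =
      ![(ModularCurve.jq : LaurentSeries ℚ), qExpand ℚ N ModularCurve.jq] := by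
  funext i
  fin_cases i
  · show coeffMap (Int.castRingHom ℚ) (jqModC ℤ) = ModularCurve.jq
    rw [coeffMap_jqModC, jqModC_rat]
  · show coeffMap (Int.castRingHom ℚ) (jqNModC ℤ N) = qExpand ℚ N ModularCurve.jq
    rw [coeffMap_jqNModC, jqNModC_rat]
    rfl

/-- an integral relation between `j(q)`, `j(q^N)` over `ℚ((X))` holds over `ℤ((X))`. -/
theorem aeval_int_of_aeval_rat (H : MvPolynomial (Fin 2) ℤ)
    (h : MvPolynomial.aeval ![(ModularCurve.jq : LaurentSeries ℚ), qExpand ℚ N ModularCurve.jq]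
      (H.map (Int.castRingHom ℚ)) = 0) :
    MvPolynomial.eval₂ (Int.castRingHom (LaurentSeries ℤ)) ![jqModC ℤ, jqNModC ℤ N] H = 0 := by
  apply coeffMap_injective (Int.castRingHom ℚ) Int.cast_injective
  rw [map_zero, MvPolynomial.eval₂_comp_left, ← h, MvPolynomial.aeval_def, MvPolynomial.eval₂_map]
  have h1 : (coeffMap (Int.castRingHom ℚ)).comp (Int.castRingHom (LaurentSeries ℤ)) =
      (algebraMap ℚ (LaurentSeries ℚ)).comp (Int.castRingHom ℚ) := Subsingleton.elim _ _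
  rw [h1]
  congr 1
  exact coeffMap_comp_vec

section Lift

variable {K : Type*} [Field K] (φ : PowerSeries ℤ →+* K) (hφ : φ X ≠ 0)
  (ψ : PowerSeries ℤ →+* K)

include hφ in
/-- an integral relation specialises along `liftL φ`. -/
theorem aeval_of_ringHom (hψ : ∀ f, ψ f = φ (expand N (NeZero.ne N) f))
    (H : MvPolynomial (Fin 2) ℤ)
    (h : MvPolynomial.eval₂ (Int.castRingHom (LaurentSeries ℤ)) ![jqModC ℤ, jqNModC ℤ N] H = 0) :
    MvPolynomial.eval₂ (Int.castRingHom K) ![jVal φ, jVal ψ] H = 0 := by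
  have h1 := congrArg (liftL φ hφ) h
  rw [map_zero, MvPolynomial.eval₂_comp_left] at h1
  have h2 : (liftL φ hφ).comp (Int.castRingHom (LaurentSeries ℤ)) = Int.castRingHom K :=
    Subsingleton.elim _ _
  have h3 : (⇑(liftL φ hφ) ∘ ![jqModC ℤ, jqNModC ℤ N]) = ![jVal φ, jVal ψ] := by
    funext i
    fin_cases i
    · show liftL φ hφ (jqModC ℤ) = jVal φ
      rw [liftL_jqModC]; rfl
    · show liftL φ hφ (jqNModC ℤ N) = jVal ψ
      rw [liftL_jqNModC, jVal, hψ, hψ, expand_X, map_pow]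
  rw [h2, h3] at h1
  exact h1

end Lift

/-! ### the swapped relation -/

section Symm

variable {p : ℕ} [NeZero p]

theorem val_eval₂_FN (v : Fin 2 → FN p) (w : Fin 2 → LaurentSeries ℚ)
    (hvw : ∀ i, ((v i : FN p) : LaurentSeries Kbar) = coeffEmb Kbar (w i))
    (G : MvPolynomial (Fin 2) ℚ) :
    ((MvPolynomial.eval₂ (algebraMap ℚ (FN p)) v G : FN p) : LaurentSeries Kbar) =
      coeffEmb Kbar (MvPolynomial.aeval w G) := by
  have h1 := MvPolynomial.eval₂_comp_left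
    ((modularFunctionFieldBar p).val : FN p →+* LaurentSeries Kbar) (algebraMap ℚ (FN p)) v G
  have h2 := MvPolynomial.eval₂_comp_left (coeffEmb Kbar) (algebraMap ℚ (LaurentSeries ℚ)) w G
  rw [MvPolynomial.aeval_def, h2]
  show ((modularFunctionFieldBar p).val : FN p →+* LaurentSeries Kbar) _ = _
  rw [h1]
  have h3 : ((modularFunctionFieldBar p).val : FN p →+* LaurentSeries Kbar).comp
      (algebraMap ℚ (FN p)) = (coeffEmb Kbar).comp (algebraMap ℚ (LaurentSeries ℚ)) :=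
    Subsingleton.elim _ _
  rw [h3]
  congr 1
  funext i
  exact hvw i

/-- **the swapped relation**: `G(j(q), j(q^p)) = 0 ⟹ G(j(q^p), j(q)) = 0`, `p` prime. -/
theorem symm_rel (hp : p.Prime) (G : MvPolynomial (Fin 2) ℚ)
    (h : MvPolynomial.aeval ![(ModularCurve.jq : LaurentSeries ℚ), qExpand ℚ p ModularCurve.jq] G = 0) :
    MvPolynomial.aeval ![qExpand ℚ p ModularCurve.jq, (ModularCurve.jq : LaurentSeries ℚ)] G = 0 := by
  have hd := exactDvd_self hp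
  set v₁ : Fin 2 → FN p := ![gen p (idxOne p), gen p (idxSelf p)] with hv₁
  set v₂ : Fin 2 → FN p := ![gen p (idxSelf p), gen p (idxOne p)] with hv₂
  have hvw₁ : ∀ i, ((v₁ i : FN p) : LaurentSeries Kbar) =
      coeffEmb Kbar (![(ModularCurve.jq : LaurentSeries ℚ), qExpand ℚ p ModularCurve.jq] i) := by
    intro i
    fin_cases i
    · exact coe_gen_idxOne
    · exact coe_gen_idxSelf
  have hvw₂ : ∀ i, ((v₂ i : FN p) : LaurentSeries Kbar) =
      coeffEmb Kbar (![qExpand ℚ p ModularCurve.jq, (ModularCurve.jq : LaurentSeries ℚ)] i) := by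
    intro i
    fin_cases i
    · exact coe_gen_idxSelf
    · exact coe_gen_idxOne
  have h1 : MvPolynomial.eval₂ (algebraMap ℚ (FN p)) v₁ G = 0 := by
    apply Subtype.ext
    rw [val_eval₂_FN v₁ _ hvw₁, h, map_zero]
    rfl
  have h2 := congrArg ((wAut hd : FN p ≃ₐ[Kbar] FN p) : FN p →+* FN p) h1
  rw [map_zero, MvPolynomial.eval₂_comp_left] at h2
  have h3 : ((wAut hd : FN p ≃ₐ[Kbar] FN p) : FN p →+* FN p).comp (algebraMap ℚ (FN p)) =
      algebraMap ℚ (FN p) := Subsingleton.elim _ _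
  have h4 : (⇑((wAut hd : FN p ≃ₐ[Kbar] FN p) : FN p →+* FN p) ∘ v₁) = v₂ := by
    funext i
    fin_cases i
    · show wAut hd (gen p (idxOne p)) = gen p (idxSelf p)
      rw [wAut_gen, swapIdx_idxOne hp]
    · show wAut hd (gen p (idxSelf p)) = gen p (idxOne p)
      rw [wAut_gen, swapIdx_idxSelf hp]
  rw [h3, h4] at h2
  have h5 : ((MvPolynomial.eval₂ (algebraMap ℚ (FN p)) v₂ G : FN p) : LaurentSeries Kbar) = 0 := by
    rw [h2]; rfl
  rw [val_eval₂_FN v₂ _ hvw₂] at h5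
  apply coeffEmb_injective
  rw [map_zero]
  exact h5

end Symm

/-! ### `RelQ` -/

section RelQ

variable {K : Type*} [NormedField K] [IsUltrametricDist K] [CompleteSpace K] [CharZero K]
variable {p : ℕ} [NeZero p]

theorem eval₂_intCast_rat (H : MvPolynomial (Fin 2) ℤ) (a a' : ℚ) :
    MvPolynomial.eval₂ (Int.castRingHom K) ![(a : K), (a' : K)] H =
      ((MvPolynomial.eval ![a, a'] (H.map (Int.castRingHom ℚ)) : ℚ) : K) := by
  have h1 := MvPolynomial.eval₂_comp_left (Rat.castHom K) (Int.castRingHom ℚ) ![a, a'] H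
  have h2 : (Rat.castHom K).comp (Int.castRingHom ℚ) = Int.castRingHom K := Subsingleton.elim _ _
  have h3 : (⇑(Rat.castHom K) ∘ ![a, a']) = ![(a : K), (a' : K)] := by
    funext i
    fin_cases i <;> rfl
  rw [h2, h3] at h1
  rw [← h1, MvPolynomial.eval_map]
  rfl

/-- the core: a relation `G(j(q), j(q^p)) = 0` over `ℚ` vanishes at `(jq x, jq (x^p))`. -/
theorem eval_eq_zero_of_rel {x : K} (hx0 : x ≠ 0) (hx1 : ‖x‖ < 1) {a a' : ℚ}
    (ha : (a : K) = jq x) (ha' : (a' : K) = jq (x ^ p)) (G : MvPolynomial (Fin 2) ℚ)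
    (hG : MvPolynomial.aeval ![(ModularCurve.jq : LaurentSeries ℚ), qExpand ℚ p ModularCurve.jq] G = 0) :
    MvPolynomial.eval ![a, a'] G = 0 := by
  obtain ⟨n, hn, H, hH⟩ := exists_int_multiple G
  have h1 : MvPolynomial.aeval ![(ModularCurve.jq : LaurentSeries ℚ), qExpand ℚ p ModularCurve.jq]
      (H.map (Int.castRingHom ℚ)) = 0 := by
    rw [hH, map_mul, hG, mul_zero]
  have h2 := aeval_int_of_aeval_rat H h1
  have hxp := norm_pow_lt_one hx1 (NeZero.ne p)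
  have h3 := aeval_of_ringHom (evalInt x hx1) (by rw [evalInt_apply, ev_X]; exact hx0)
    (evalInt (x ^ p) hxp) (fun f => by
      rw [evalInt_apply, evalInt_apply]; exact ev_expand p (NeZero.ne p) f) H h2
  have h4 : jVal (evalInt x hx1) = (a : K) := by
    rw [ha, jVal, evalInt_apply, evalInt_apply, ev_X, jq]
  have h5 : jVal (evalInt (x ^ p) hxp) = (a' : K) := by
    rw [ha', jVal, evalInt_apply, evalInt_apply, ev_X, jq]
  rw [h4, h5, eval₂_intCast_rat, hH, map_mul, MvPolynomial.eval_C] at h3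
  have h6 : (n : ℚ) * MvPolynomial.eval ![a, a'] G = 0 := by exact_mod_cast h3
  rcases mul_eq_zero.mp h6 with h7 | h7
  · exact absurd (by exact_mod_cast h7) hn
  · exact h7

/-- **`RelQ`, quotient by `μ_p`**: `(a, a') = (j(q₀), j(q₀^p))`. -/
theorem relQ_mu {q₀ : K} (hq0 : q₀ ≠ 0) (hq1 : ‖q₀‖ < 1) {a a' : ℚ}
    (ha : (a : K) = jq q₀) (ha' : (a' : K) = jq (q₀ ^ p)) : RelQ p a a' :=
  fun G hG => eval_eq_zero_of_rel hq0 hq1 ha ha' G hG

/-- **`RelQ`, quotient by `<t>`**: `(a, a') = (j(t^p), j(t))`, `p` prime. -/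
theorem relQ_root (hp : p.Prime) {t : K} (ht0 : t ≠ 0) (ht1 : ‖t‖ < 1) {a a' : ℚ}
    (ha : (a : K) = jq (t ^ p)) (ha' : (a' : K) = jq t) : RelQ p a a' := by
  intro G hG
  -- swap the variables of `G`
  set G' : MvPolynomial (Fin 2) ℚ := MvPolynomial.rename (Equiv.swap (0 : Fin 2) 1) G with hG'
  have hsw : ∀ (R : Type) [CommRing R] [Algebra ℚ R] (u v : R),
      MvPolynomial.aeval ![u, v] G' = MvPolynomial.aeval ![v, u] G := by
    intro R _ _ u v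
    have hvec : (![u, v] ∘ ⇑(Equiv.swap (0 : Fin 2) 1)) = ![v, u] := by
      funext i
      fin_cases i <;> rfl
    rw [hG', MvPolynomial.aeval_rename, hvec]
  have h1 : MvPolynomial.aeval ![(ModularCurve.jq : LaurentSeries ℚ), qExpand ℚ p ModularCurve.jq] G' = 0 := by
    rw [hsw]
    exact symm_rel hp G hG
  have h2 := eval_eq_zero_of_rel ht0 ht1 ha' ha G' h1
  have h3 := hsw ℚ a' a
  rw [MvPolynomial.aeval_eq_eval, MvPolynomial.aeval_eq_eval] at h3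
  rw [← h3]
  exact h2

end RelQ

/-! ### (T6) with `RelQ`, rational form -/

section Final

variable {K : Type*} [NormedField K] [IsUltrametricDist K] [CompleteSpace K] [CharZero K]
variable {ℓ : ℕ} [Fact ℓ.Prime] {p : ℕ} [NeZero p]

theorem jVal_evalInt {x : K} (hx : ‖x‖ < 1) : jVal (evalInt x hx) = jq x := by
  rw [jVal, evalInt_apply, evalInt_apply, ev_X, jq]

/-- the `j`-value of the Vélu data: `c₄' = λ⁴ E₄(x)`, `c₆'² = λ¹² E₆(x)²` ⟹ `a' = j(x)`. -/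
theorem ratCast_eq_jq {x lam : K} (hx0 : x ≠ 0) (hx1 : ‖x‖ < 1) (hlam : lam ≠ 0)
    {a' c4' c6' : ℚ} (h4 : (c4' : K) = lam ^ 4 * ev x e4Z)
    (h6 : (c6' : K) ^ 2 = lam ^ 12 * ev x e6Z ^ 2)
    (ha' : a' = 1728 * c4' ^ 3 / (c4' ^ 3 - c6' ^ 2)) :
    c4' ^ 3 - c6' ^ 2 ≠ 0 ∧ (a' : K) = jq x := by
  have h1728 : (1728 : K) ≠ 0 := by norm_num
  obtain ⟨hne, hj⟩ := jVal_of_c4_c6 (evalInt x hx1) (by rw [evalInt_apply, ev_X]; exact hx0)
    hlam h1728 (c4' := (c4' : K)) (c6' := (c6' : K)) h4 h6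
  rw [jVal_evalInt] at hj
  refine ⟨?_, ?_⟩
  · intro h0
    apply hne
    have := congrArg (fun x : ℚ => (x : K)) h0
    simpa using this
  · rw [← hj, ha']; push_cast; ring

/-- **(T6), quotient by `μ_p`, pinned form**: `RelQ p a a'` and `v(a') = p · v(a)`.
`lam` is the scaling of the Vélu data (`lam = p` for the Tate model itself, `lam = p · u` after a
change of variables of scale `u`). -/
theorem t6_mu_relQ (hK : ∀ x : ℚ, ‖(x : K)‖ = ((padicNorm ℓ x : ℚ) : ℝ))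
    {a a' c4' c6' : ℚ} {q₀ lam : K} (hq0 : q₀ ≠ 0) (hq1 : ‖q₀‖ < 1) (hlam : lam ≠ 0)
    (ha : (a : K) = jq q₀)
    (h4 : (c4' : K) = lam ^ 4 * ev (q₀ ^ p) e4Z)
    (h6 : (c6' : K) ^ 2 = lam ^ 12 * ev (q₀ ^ p) e6Z ^ 2)
    (ha' : a' = 1728 * c4' ^ 3 / (c4' ^ 3 - c6' ^ 2)) :
    c4' ^ 3 - c6' ^ 2 ≠ 0 ∧ RelQ p a a' ∧ padicValRat ℓ a' = p * padicValRat ℓ a := by
  have hp0 : p ≠ 0 := NeZero.ne p
  have hqp := norm_pow_lt_one hq1 hp0
  obtain ⟨hne, hj⟩ := ratCast_eq_jq (pow_ne_zero p hq0) hqp hlam h4 h6 ha'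
  have hn : ‖(a' : K)‖ = ‖(a : K)‖ ^ p := by
    rw [hj, ha, norm_jq hqp, norm_jq hq1, norm_pow, inv_pow]
  have ha1 : 1 < ‖(a : K)‖ := by rw [ha]; exact one_lt_norm_jq hq0 hq1
  have ha'1 : 1 < ‖(a' : K)‖ := by
    rw [hn]; exact one_lt_pow₀ ha1 hp0
  exact ⟨hne, relQ_mu hq0 hq1 ha hj,
    padicValRat_eq_mul_of_norm hK (ne_zero_of_one_lt_norm ha1) (ne_zero_of_one_lt_norm ha'1) hn⟩

/-- **(T6), quotient by `<t₀>`, `t₀^p = q₀`, pinned form**: `RelQ p a a'` and `p · v(a') = v(a)`. -/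
theorem t6_root_relQ (hK : ∀ x : ℚ, ‖(x : K)‖ = ((padicNorm ℓ x : ℚ) : ℝ)) (hp : p.Prime)
    {a a' c4' c6' : ℚ} {q₀ t₀ lam : K} (hq0 : q₀ ≠ 0) (hq1 : ‖q₀‖ < 1) (hlam : lam ≠ 0)
    (ha : (a : K) = jq q₀) (ht : t₀ ^ p = q₀)
    (h4 : (c4' : K) = lam ^ 4 * ev t₀ e4Z) (h6 : (c6' : K) ^ 2 = lam ^ 12 * ev t₀ e6Z ^ 2)
    (ha' : a' = 1728 * c4' ^ 3 / (c4' ^ 3 - c6' ^ 2)) :
    c4' ^ 3 - c6' ^ 2 ≠ 0 ∧ RelQ p a a' ∧ p * padicValRat ℓ a' = padicValRat ℓ a := by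
  have hp0 : p ≠ 0 := NeZero.ne p
  have ht0 : t₀ ≠ 0 := by
    rintro rfl
    rw [zero_pow hp0] at ht
    exact hq0 ht.symm
  have ht1 : ‖t₀‖ < 1 := by
    by_contra hcon
    rw [not_lt] at hcon
    have : 1 ≤ ‖q₀‖ := by
      rw [← ht, norm_pow]
      exact one_le_pow₀ hcon
    exact absurd hq1 (not_lt.mpr this)
  obtain ⟨hne, hj⟩ := ratCast_eq_jq ht0 ht1 hlam h4 h6 ha'
  have hn : ‖(a' : K)‖ ^ p = ‖(a : K)‖ := by
    rw [hj, ha, ← ht, norm_jq ht1, norm_jq (norm_pow_lt_one ht1 hp0), norm_pow, inv_pow]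
  have ha1 : 1 < ‖(a : K)‖ := by rw [ha]; exact one_lt_norm_jq hq0 hq1
  have ha'1 : 1 < ‖(a' : K)‖ := by
    by_contra hcon
    rw [not_lt] at hcon
    have : ‖(a' : K)‖ ^ p ≤ 1 := pow_le_one₀ (norm_nonneg _) hcon
    rw [hn] at this
    linarith
  refine ⟨hne, relQ_root hp ht0 ht1 (by rw [ht]; exact ha) hj,
    padicValRat_mul_eq_of_norm hK (ne_zero_of_one_lt_norm ha1) (ne_zero_of_one_lt_norm ha'1) hn⟩

end Final

/-! ### at `K = ℂ_[ℓ]` -/

section PadicComplex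

variable {ℓ : ℕ} [Fact ℓ.Prime] {p : ℕ} [NeZero p]

theorem t6_mu_relQ_padicComplex {a a' c4' c6' : ℚ} {q₀ lam : ℂ_[ℓ]} (hq0 : q₀ ≠ 0)
    (hq1 : ‖q₀‖ < 1) (hlam : lam ≠ 0) (ha : (a : ℂ_[ℓ]) = jq q₀)
    (h4 : (c4' : ℂ_[ℓ]) = lam ^ 4 * ev (q₀ ^ p) e4Z)
    (h6 : (c6' : ℂ_[ℓ]) ^ 2 = lam ^ 12 * ev (q₀ ^ p) e6Z ^ 2)
    (ha' : a' = 1728 * c4' ^ 3 / (c4' ^ 3 - c6' ^ 2)) :
    c4' ^ 3 - c6' ^ 2 ≠ 0 ∧ RelQ p a a' ∧ padicValRat ℓ a' = p * padicValRat ℓ a :=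
  t6_mu_relQ (norm_ratCast_padicComplex ℓ) hq0 hq1 hlam ha h4 h6 ha'

theorem t6_root_relQ_padicComplex (hp : p.Prime) {a a' c4' c6' : ℚ} {q₀ t₀ lam : ℂ_[ℓ]}
    (hq0 : q₀ ≠ 0) (hq1 : ‖q₀‖ < 1) (hlam : lam ≠ 0) (ha : (a : ℂ_[ℓ]) = jq q₀)
    (ht : t₀ ^ p = q₀)
    (h4 : (c4' : ℂ_[ℓ]) = lam ^ 4 * ev t₀ e4Z) (h6 : (c6' : ℂ_[ℓ]) ^ 2 = lam ^ 12 * ev t₀ e6Z ^ 2)
    (ha' : a' = 1728 * c4' ^ 3 / (c4' ^ 3 - c6' ^ 2)) :
    c4' ^ 3 - c6' ^ 2 ≠ 0 ∧ RelQ p a a' ∧ p * padicValRat ℓ a' = padicValRat ℓ a :=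
  t6_root_relQ (norm_ratCast_padicComplex ℓ) hp hq0 hq1 hlam ha ht h4 h6 ha'

end PadicComplex

end Fermat.Agent.GZ.Tate.T6
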